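import Fermat.Agent.PrimePairShifts.Grid

/-!
# The mean square of the error for prime pairs

`∑_{n ≤ X} (∑_{m ≤ X - n} Λ m Λ (m + n) - 𝔖₂ n (X - n))² = O (X³ / (log X) ^ e)`: the circle method
on the points `h / (3 X)`, with Bessel's identity on the minor arcs.
-/

set_option autoImplicit false

noncomputable section

namespace FA.PrimePairShifts

open Finset Complex ArithmeticFunction
open FA.ThreePrimes (eAdd nearDist clip trigSum twist geomSum arc arcCentres centre moebiusR)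
open FA.AlmostGoldbach (pairTerm pairSeries pairConst)
open scoped Real ComplexConjugate

/-- **The minor arcs in mean square.** -/
theorem sum_minor_sq_le {X M : ℕ} (hM : X < M) {l G : ℝ} (hl : Real.log X ≤ l) (S : Finset ℕ)
    (hS : S ⊆ range M) (hG : ∀ h ∈ S, ‖twist ((h : ℝ) / M) Λ X‖ ≤ G) :
    ∑ n ∈ Icc 1 X, ‖∑ h ∈ S, twist ((h : ℝ) / M) Λ X * conj (twist ((h : ℝ) / M) Λ X) *
      eAdd (-(n * ((h : ℝ) / M)))‖ ^ 2 ≤ (M : ℝ) * (G ^ 2 * (M * (6 * X * l))) := by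
  have hM0 : 0 < M := by omega
  refine (sum_le_sum_of_subset_of_nonneg (t := range M) (fun n hn => ?_)
    fun n _ _ => sq_nonneg _).trans ?_
  · rw [mem_Icc] at hn
    rw [mem_range]
    omega
  rw [AlmostGoldbach.sum_norm_sq_coeff hM0 S hS
    fun h : ℕ => twist ((h : ℝ) / M) Λ X * conj (twist ((h : ℝ) / M) Λ X)]
  refine mul_le_mul_of_nonneg_left ((sum_le_sum (g := fun h : ℕ =>
    G ^ 2 * ‖twist ((h : ℝ) / M) Λ X‖ ^ 2) fun h hh => ?_).trans ?_) (Nat.cast_nonneg M)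
  · rw [norm_mul, Complex.norm_conj, mul_pow]
    exact mul_le_mul_of_nonneg_right (pow_le_pow_left₀ (norm_nonneg _) (hG h hh) 2) (sq_nonneg _)
  rw [← mul_sum]
  refine mul_le_mul_of_nonneg_left ?_ (sq_nonneg _)
  refine (sum_le_sum_of_subset_of_nonneg hS fun i _ _ => sq_nonneg _).trans ?_
  simp only [ThreePrimes.twist_eq_trigSum]
  rw [ThreePrimes.sum_norm_sq_grid (fun n => (Λ n : ℂ)) hM]
  refine mul_le_mul_of_nonneg_left ?_ (Nat.cast_nonneg M)
  refine (sum_le_sum (g := fun n => l * Λ n) fun n hn => ?_).trans ?_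
  · rw [mem_Icc] at hn
    rw [Complex.norm_real, Real.norm_eq_abs, sq_abs, sq]
    exact mul_le_mul_of_nonneg_right ((vonMangoldt_le_log.trans (Real.log_le_log
      (Nat.cast_pos.2 hn.1) (Nat.cast_le.2 hn.2))).trans hl) vonMangoldt_nonneg
  · rw [← mul_sum, mul_comm _ l]
    exact mul_le_mul_of_nonneg_left (ThreePrimes.sum_vonMangoldt_le X)
      ((Real.log_natCast_nonneg X).trans hl)

theorem sum_sq_four_le (a b c d : ℝ) :
    (a + b + c + d) ^ 2 ≤ 4 * (a ^ 2 + b ^ 2 + c ^ 2 + d ^ 2) := by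
  nlinarith [sq_nonneg (a - b), sq_nonneg (a - c), sq_nonneg (a - d), sq_nonneg (b - c),
    sq_nonneg (b - d), sq_nonneg (c - d)]

/-- **The mean square**, for large `X`. -/
theorem exists_mean_square_large (e : ℕ) : ∃ (C : ℝ) (X₀ : ℕ), 0 < C ∧ ∀ X : ℕ, X₀ ≤ X →
    ∑ n ∈ Icc 1 X, (shiftW X n - pairSeries n * ((X : ℝ) - n)) ^ 2 ≤
      C * ((X : ℝ) ^ 3 / Real.log X ^ e) := by
  obtain ⟨b, hb⟩ : ∃ b, b = e + 10 := ⟨_, rfl⟩
  obtain ⟨C₁, hC₁, hmin⟩ := ThreePrimes.exists_minor_le b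
  obtain ⟨C₂, hC₂, hmaj⟩ := ThreePrimes.exists_major_approx (2 * b) (7 * b + 2)
  obtain ⟨K, hK, hpow⟩ := ThreePrimes.exists_log_pow_le (6 * b)
  obtain ⟨Z₁, hZ₁⟩ : ∃ Z₁ : ℝ, Z₁ = 2 * ∑' q : ℕ, (q : ℝ) ^ (-(5 / 4) : ℝ) := ⟨_, rfl⟩
  have hZ₁0 : 0 ≤ Z₁ := hZ₁ ▸ mul_nonneg two_pos.le (tsum_nonneg fun q => by positivity)
  have hPC := AlmostGoldbach.pairConst_nonneg
  refine ⟨4 * (10 * C₁ ^ 2 + (200 * C₂) ^ 2 + (8 * Z₁) ^ 2 + 4 * pairConst ^ 2),
    max (⌈(2 * K + 1) ^ 2⌉₊) 8, by positivity, fun X hX => ?_⟩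
  have hX8 : 8 ≤ X := le_trans (le_max_right _ _) hX
  have hX1 : (1 : ℝ) ≤ X := by exact_mod_cast (show 1 ≤ X by omega)
  obtain ⟨l, hl⟩ : ∃ l, l = Real.log X := ⟨_, rfl⟩
  have hl2 : 2 ≤ l := by
    rw [hl, Real.le_log_iff_exp_le (by linarith), show (2 : ℝ) = ((2 : ℕ) : ℝ) * 1 by norm_num,
      Real.exp_nat_mul]
    have h8 : (8 : ℝ) ≤ X := by exact_mod_cast hX8
    refine le_trans ?_ h8
    nlinarith [Real.exp_pos 1, Real.exp_one_lt_d9]
  have hl1 : 1 ≤ l := by linarith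
  have hl0 : 0 < l := by linarith
  rw [← hl]
  obtain ⟨R, hR⟩ : ∃ R, R = l ^ (2 * b) := ⟨_, rfl⟩
  have hR1 : 1 ≤ R := hR ▸ one_le_pow₀ hl1
  have hR3 : 2 * R ^ 3 < X := by
    have h1 : (2 * K + 1) ^ 2 ≤ (X : ℝ) :=
      (Nat.le_ceil _).trans (Nat.cast_le.2 (le_trans (le_max_left _ _) hX))
    have h2 : 2 * K < √(X : ℝ) := by
      rw [Real.lt_sqrt (by positivity)]
      nlinarith
    rw [hR, ← pow_mul, show 2 * b * 3 = 6 * b by ring]
    calc 2 * l ^ (6 * b) ≤ 2 * K * √(X : ℝ) := by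
          rw [mul_assoc]
          exact mul_le_mul_of_nonneg_left (hl ▸ hpow X hX1) two_pos.le
      _ < √(X : ℝ) * √(X : ℝ) := mul_lt_mul_of_pos_right h2 (Real.sqrt_pos.2 (by linarith))
      _ = X := Real.mul_self_sqrt (Nat.cast_nonneg X)
  have hRX : R ≤ X := by
    have : R ≤ R ^ 3 := le_self_pow₀ hR1 (by norm_num)
    linarith
  obtain ⟨P, hP⟩ : ∃ P, P = ⌊R⌋₊ := ⟨_, rfl⟩
  have hP1 : 1 ≤ P := hP ▸ Nat.floor_pos.2 hR1
  have hPR : (P : ℝ) ≤ R := hP ▸ Nat.floor_le (by linarith)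
  obtain ⟨M, hM⟩ : ∃ M, M = 3 * X := ⟨_, rfl⟩
  have : NeZero M := ⟨by omega⟩
  have hM' : (M : ℝ) = 3 * X := by rw [hM]; push_cast; ring
  have hM0 : (0 : ℝ) < M := Nat.cast_pos.2 (NeZero.pos M)
  have hlogM : 1 + Real.log M ≤ 3 * l := by
    rw [hM', Real.log_mul (by norm_num) (by linarith), ← hl]
    have : Real.log 3 ≤ 2 := by
      rw [Real.log_le_iff_le_exp (by norm_num)]
      linarith [Real.add_one_le_exp 2]
    linarith
  obtain ⟨δ, hδ⟩ : ∃ δ, δ = R / X := ⟨_, rfl⟩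
  have hδ0 : 0 < δ := by rw [hδ]; positivity
  have hdisj : ((arcCentres P : Finset _) : Set (Σ _ : ℕ, ℕ)).PairwiseDisjoint (arc M δ) :=
    hδ ▸ pairwiseDisjoint_arc (by linarith) hR1 hPR hP1 hR3
  obtain ⟨minor, hminor⟩ : ∃ m, m = (range M) \ (arcCentres P).biUnion (arc M δ) := ⟨_, rfl⟩
  obtain ⟨W, hW⟩ : ∃ W : ℕ → ℂ, W = fun n : ℕ => ∑ h ∈ minor, twist ((h : ℝ) / M) Λ X *
      conj (twist ((h : ℝ) / M) Λ X) * eAdd (-(n * ((h : ℝ) / M))) := ⟨_, rfl⟩
  obtain ⟨E, hE⟩ : ∃ E : ℝ, E = (X : ℝ) ^ 3 / l ^ e := ⟨_, rfl⟩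
  rw [← hE]
  -- the minor arcs in mean square
  have p1 : ∑ n ∈ Icc 1 X, (‖W n‖ / M) ^ 2 ≤ 10 * C₁ ^ 2 * E := by
    simp only [div_pow, ← sum_div]
    rw [div_le_iff₀ (by positivity), hW]
    obtain ⟨G, hG⟩ : ∃ G, G = C₁ * ((X : ℝ) * l ^ 4 / l ^ b) := ⟨_, rfl⟩
    refine (sum_minor_sq_le (G := G) (l := l) (by omega) hl.ge minor
      (hminor ▸ sdiff_subset) fun h hh => ?_).trans ?_
    · rw [hminor, mem_sdiff, mem_biUnion] at hh
      have := hmin X P ((h : ℝ) / M) (hl ▸ hl1) (hl ▸ hR ▸ hRX) (by rw [hP, hR, hl])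
        fun z hz => ?_
      · rwa [← hl, ← hG] at this
      · rw [← hl, ← hR, ← hδ]
        by_contra hle
        exact hh.2 ⟨z, hz, mem_filter.2 ⟨hh.1, not_lt.1 hle⟩⟩
    · have h1 : l ^ 9 / (l ^ b) ^ 2 ≤ 1 / l ^ e := by
        rw [div_le_div_iff₀ (by positivity) (by positivity), one_mul, ← pow_mul, ← pow_add]
        exact pow_le_pow_right₀ hl1 (by omega)
      calc (M : ℝ) * (G ^ 2 * (M * (6 * X * l)))
          = 6 * C₁ ^ 2 * ((X : ℝ) ^ 3 * (l ^ 9 / (l ^ b) ^ 2)) * (M : ℝ) ^ 2 := by rw [hG]; ring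
        _ ≤ 10 * C₁ ^ 2 * ((X : ℝ) ^ 3 * (1 / l ^ e)) * (M : ℝ) ^ 2 := by
            refine mul_le_mul_of_nonneg_right (mul_le_mul ?_ (mul_le_mul_of_nonneg_left h1
              (by positivity)) (by positivity) (by positivity)) (sq_nonneg _)
            linarith [sq_nonneg C₁]
        _ = _ := by rw [hE]; ring
  -- the pointwise bound
  have p2 : ∀ n ∈ Icc 1 X, |shiftW X n - pairSeries n * ((X : ℝ) - n)| ≤
      ‖W n‖ / M + 200 * C₂ * (X / l ^ (b + 1)) + 8 * Z₁ * (X * l / l ^ b) +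
        pairConst * n.divisors.card * (X * ((P + 1 : ℕ) : ℝ) ^ (-(1 / 4) : ℝ)) := by
    intro n hn
    rw [mem_Icc] at hn
    have hn0 : n ≠ 0 := by omega
    obtain ⟨F, hF⟩ : ∃ F : ℕ → ℂ, F = fun h : ℕ => twist ((h : ℝ) / M) Λ X *
        conj (twist ((h : ℝ) / M) Λ X) * eAdd (-(n * ((h : ℝ) / M))) := ⟨_, rfl⟩
    have htotal : ∑ h ∈ range M, F h = M * (shiftW X n : ℂ) := by
      rw [← shiftSum_cast hn.2,
        ← sum_conj_grid (fun i => (Λ i : ℂ)) (show 3 * X ≤ M by omega) hn.2 0, hF]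
      refine sum_congr rfl fun h _ => ?_
      simp only [add_zero, ThreePrimes.twist_eq_trigSum]
    have hdecomp : ∑ h ∈ range M, F h =
        W n + ∑ z ∈ arcCentres P, ∑ h ∈ arc M δ z, F h := by
      rw [← sum_biUnion hdisj, show W n = ∑ h ∈ minor, F h by rw [hW, hF], hminor, sum_sdiff]
      exact biUnion_subset.2 fun z _ => filter_subset _ _
    have q2 : ∀ z ∈ arcCentres P, ∀ h ∈ arc M δ z,
        ‖F h - arcCoeff n z * mainShift X n ((h : ℝ) / M + -centre z)‖ ≤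
          12 * X * (C₂ * (X / l ^ (7 * b + 2))) := by
      rintro ⟨q, r⟩ hz h hh
      rw [ThreePrimes.mem_arcCentres] at hz
      obtain ⟨⟨hq1, hqP⟩, -, hcop⟩ := hz
      simp only at hq1 hqP hcop
      have : NeZero q := ⟨by omega⟩
      rw [arc, mem_filter, nearDist] at hh
      obtain ⟨k, hk⟩ : ∃ k, k = round ((h : ℝ) / M - centre ⟨q, r⟩) := ⟨_, rfl⟩
      obtain ⟨β, hβ⟩ : ∃ β, β = (h : ℝ) / M - centre ⟨q, r⟩ - k := ⟨_, rfl⟩
      rw [← hk, ← hβ] at hh
      have hq0 : (q : ℝ) ≠ 0 := Nat.cast_ne_zero.2 (by omega)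
      have hα : (h : ℝ) / M = (((r : ℤ) + k * q : ℤ) : ℝ) / q + β := by
        rw [hβ, centre]
        push_cast
        field_simp
        ring
      have hunit : IsUnit (((r : ℤ) + k * q : ℤ) : ZMod q) := by
        push_cast
        rw [ZMod.natCast_self, mul_zero, add_zero]
        exact (ZMod.isUnit_iff_coprime r q).2 hcop.symm
      have happ := hmaj X q ((r : ℤ) + k * q) β (by omega) hunit
        (by rw [← hl, ← hR]; exact (Nat.cast_le.2 hqP).trans hPR)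
        (by
          rw [← hl, ← hR, ← le_div_iff₀ (by linarith), ← hδ]
          exact hh.2)
      rw [← hα, ← hl] at happ
      obtain ⟨B, hB⟩ : ∃ B : ℂ, B = ((moebiusR q / q.totient : ℝ) : ℂ) * geomSum X β := ⟨_, rfl⟩
      rw [← hB] at happ
      have hBB : arcCoeff n ⟨q, r⟩ * mainShift X n ((h : ℝ) / M + -centre ⟨q, r⟩) =
          B * conj B * eAdd (-(n * ((h : ℝ) / M))) := by
        rw [arcCoeff, mainShift, ← sub_eq_add_neg, ← ThreePrimes.geomSum_sub_intCast X _ k, ← hβ,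
          show -((n : ℝ) * ((h : ℝ) / M)) = -(n * centre ⟨q, r⟩) +
            -(n * ((h : ℝ) / M - centre ⟨q, r⟩)) by ring, ThreePrimes.eAdd_add, hB, map_mul,
          Complex.conj_ofReal, Complex.ofReal_pow]
        ring
      have h2 : ‖B‖ ≤ 6 * X := by
        rw [hB, norm_mul, Complex.norm_real, Real.norm_eq_abs]
        refine le_trans (mul_le_of_le_one_left (norm_nonneg _) ?_) ?_
        · rw [abs_div, Nat.abs_cast]
          exact div_le_one_of_le₀ ((ThreePrimes.abs_moebiusR_le q).trans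
            (by exact_mod_cast Nat.totient_pos.2 hq1)) (Nat.cast_nonneg _)
        · refine (norm_sum_le _ _).trans ?_
          simp [ThreePrimes.norm_eAdd]
          linarith
      rw [hF, hBB, ← sub_mul, norm_mul, ThreePrimes.norm_eAdd, mul_one]
      refine (norm_mul_conj_sub_le (ThreePrimes.norm_twist_le _ X) h2 happ).trans (le_of_eq ?_)
      ring
    have q3 : ‖∑ z ∈ arcCentres P, ∑ h ∈ arc M δ z,
        (F h - arcCoeff n z * mainShift X n ((h : ℝ) / M + -centre z))‖ ≤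
          R ^ 2 * (41 * R * l) * (12 * X * (C₂ * (X / l ^ (7 * b + 2)))) := by
      refine (norm_sum_le _ _).trans ((sum_le_card_nsmul _ _
        (41 * R * l * (12 * X * (C₂ * (X / l ^ (7 * b + 2))))) fun z hz => ?_).trans ?_)
      · refine (norm_sum_le _ _).trans ((sum_le_card_nsmul _ _ _ (q2 z hz)).trans ?_)
        rw [nsmul_eq_mul]
        refine mul_le_mul_of_nonneg_right ((ThreePrimes.card_arc_le hδ0 z).trans ?_)
          (by positivity)
        have h1 : 4 * (M : ℝ) * δ * (1 + Real.log M) ≤ 12 * R * (3 * l) := by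
          refine le_trans (le_of_eq ?_) (mul_le_mul_of_nonneg_left hlogM (by positivity))
          rw [hM', hδ]
          field_simp
          ring
        have h2 : 1 * 1 ≤ R * l := mul_le_mul hR1 hl1 zero_le_one (by linarith)
        linarith
      · rw [nsmul_eq_mul, mul_assoc (R ^ 2)]
        exact mul_le_mul_of_nonneg_right (card_arcCentres_le hPR) (by positivity)
    have q5 : ‖∑ z ∈ arcCentres P, arcCoeff n z *
        ∑ h ∈ range M \ arc M δ z, mainShift X n ((h : ℝ) / M + -centre z)‖ ≤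
          Z₁ * √(P : ℝ) * (24 * X ^ 2 * l / R) := by
      refine (norm_sum_le _ _).trans ((sum_le_sum fun z hz => ?_).trans
        ((sum_mul _ _ _).ge.trans (mul_le_mul_of_nonneg_right
          (hZ₁ ▸ sum_norm_arcCoeff_le n P) (by positivity))))
      rw [norm_mul, hδ]
      exact mul_le_mul_of_nonneg_left
        (norm_sum_mainShift_off_le hM' (by linarith) hR1 hl1 hlogM n z) (norm_nonneg _)
    obtain ⟨S, hS⟩ : ∃ S, S = ∑ q ∈ Icc 1 P, pairTerm n q := ⟨_, rfl⟩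
    have hident : ∑ h ∈ range M, F h -
        (M : ℂ) * (((X : ℝ) - n : ℝ) : ℂ) * ∑ z ∈ arcCentres P, arcCoeff n z =
        W n + ∑ z ∈ arcCentres P, ∑ h ∈ arc M δ z,
            (F h - arcCoeff n z * mainShift X n ((h : ℝ) / M + -centre z)) -
          ∑ z ∈ arcCentres P, arcCoeff n z *
            ∑ h ∈ range M \ arc M δ z, mainShift X n ((h : ℝ) / M + -centre z) := by
      have h1 : ∀ z ∈ arcCentres P, (M : ℂ) * (((X : ℝ) - n : ℝ) : ℂ) * arcCoeff n z =
          ∑ h ∈ arc M δ z, arcCoeff n z * mainShift X n ((h : ℝ) / M + -centre z) +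
            arcCoeff n z * ∑ h ∈ range M \ arc M δ z,
              mainShift X n ((h : ℝ) / M + -centre z) := by
        intro z _
        rw [← mul_sum, ← mul_add, add_comm (∑ h ∈ arc M δ z, _), sum_sdiff
          (show arc M δ z ⊆ range M from filter_subset _ _),
          sum_mainShift_grid (show 3 * X ≤ M by omega) hn.2]
        ring
      rw [mul_sum, sum_congr rfl h1, sum_add_distrib, hdecomp]
      simp only [sum_sub_distrib]
      ring
    have hmain : |shiftW X n - ((X : ℝ) - n) * S| ≤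
        ‖W n‖ / M + 200 * C₂ * (X / l ^ (b + 1)) + 8 * Z₁ * (X * l / l ^ b) := by
      rw [← Real.norm_eq_abs, ← Complex.norm_real]
      refine le_of_mul_le_mul_left ?_ hM0
      rw [← Complex.norm_natCast M, ← norm_mul, Complex.ofReal_sub, mul_sub, Complex.ofReal_mul,
        ← mul_assoc, hS, ← sum_arcCoeff, ← htotal, hident, Complex.norm_natCast]
      refine (norm_sub_le _ _).trans ((add_le_add ((norm_add_le _ _).trans (add_le_add le_rfl q3))
        q5).trans ?_)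
      rw [mul_add, mul_add, mul_div_cancel₀ _ hM0.ne']
      refine add_le_add (add_le_add le_rfl ?_) ?_
      · rw [hR, hM']
        calc (l ^ (2 * b)) ^ 2 * (41 * l ^ (2 * b) * l) * (12 * X * (C₂ * (X / l ^ (7 * b + 2))))
            = 492 * C₂ * (X : ℝ) ^ 2 * ((l ^ (2 * b)) ^ 3 * l / l ^ (7 * b + 2)) := by ring
          _ = 492 * C₂ * (X : ℝ) ^ 2 * (1 / l ^ (b + 1)) := by
              congr 1
              rw [div_eq_div_iff (by positivity) (by positivity), one_mul, ← pow_mul, ← pow_succ,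
                ← pow_add]
              congr 1
              ring
          _ ≤ 600 * C₂ * (X : ℝ) ^ 2 * (1 / l ^ (b + 1)) := by gcongr; norm_num
          _ = _ := by ring
      · have h1 : √(P : ℝ) ≤ l ^ b := by
          refine (Real.sqrt_le_sqrt hPR).trans (le_of_eq ?_)
          rw [hR, pow_mul', Real.sqrt_sq (by positivity)]
        rw [hM']
        calc Z₁ * √(P : ℝ) * (24 * (X : ℝ) ^ 2 * l / R)
            ≤ Z₁ * l ^ b * (24 * (X : ℝ) ^ 2 * l / R) := by gcongr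
          _ = _ := by rw [hR, pow_mul']; field_simp; ring
    have hst := AlmostGoldbach.abs_pairSeries_sub_le hn0 P
    rw [← hS] at hst
    have h2 : (n : ℝ) ≤ X := Nat.cast_le.2 hn.2
    have h3 : |((X : ℝ) - n) * (S - pairSeries n)| ≤
        X * (pairConst * n.divisors.card * ((P + 1 : ℕ) : ℝ) ^ (-(1 / 4) : ℝ)) := by
      rw [abs_mul, abs_sub_comm S]
      refine mul_le_mul ?_ hst (abs_nonneg _) (Nat.cast_nonneg X)
      rw [abs_of_nonneg (by linarith)]
      linarith [Nat.cast_nonneg (α := ℝ) n]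
    rw [show shiftW X n - pairSeries n * ((X : ℝ) - n) =
      (shiftW X n - ((X : ℝ) - n) * S) + ((X : ℝ) - n) * (S - pairSeries n) by ring]
    refine (abs_add_le _ _).trans ((add_le_add hmain h3).trans (le_of_eq ?_))
    ring
  -- assembly
  refine (sum_le_sum fun n hn => ?_).trans (b := ∑ n ∈ Icc 1 X,
    4 * ((‖W n‖ / M) ^ 2 + (200 * C₂ * (X / l ^ (b + 1))) ^ 2 + (8 * Z₁ * (X * l / l ^ b)) ^ 2 +
      (pairConst * n.divisors.card * (X * ((P + 1 : ℕ) : ℝ) ^ (-(1 / 4) : ℝ))) ^ 2)) ?_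
  · rw [← sq_abs]
    refine (pow_le_pow_left₀ (abs_nonneg _) (p2 n hn) 2).trans ?_
    exact sum_sq_four_le _ _ _ _
  rw [← mul_sum, sum_add_distrib, sum_add_distrib, sum_add_distrib]
  have hcard : ((Icc 1 X).card : ℝ) = X := by rw [Nat.card_Icc, Nat.add_sub_cancel]
  have s2 : ∑ _n ∈ Icc 1 X, (200 * C₂ * (X / l ^ (b + 1))) ^ 2 ≤ (200 * C₂) ^ 2 * E := by
    rw [sum_const, nsmul_eq_mul, hcard, hE]
    calc (X : ℝ) * (200 * C₂ * (X / l ^ (b + 1))) ^ 2
        = (200 * C₂) ^ 2 * ((X : ℝ) ^ 3 / (l ^ (b + 1)) ^ 2) := by ring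
      _ ≤ _ := by
          refine mul_le_mul_of_nonneg_left (div_le_div_of_nonneg_left (by positivity)
            (by positivity) ?_) (sq_nonneg _)
          rw [← pow_mul]
          exact pow_le_pow_right₀ hl1 (by omega)
  have s3 : ∑ _n ∈ Icc 1 X, (8 * Z₁ * (X * l / l ^ b)) ^ 2 ≤ (8 * Z₁) ^ 2 * E := by
    rw [sum_const, nsmul_eq_mul, hcard, hE]
    calc (X : ℝ) * (8 * Z₁ * (X * l / l ^ b)) ^ 2
        = (8 * Z₁) ^ 2 * ((X : ℝ) ^ 3 * (l ^ 2 / (l ^ b) ^ 2)) := by ring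
      _ ≤ _ := by
          refine mul_le_mul_of_nonneg_left ?_ (sq_nonneg _)
          rw [div_eq_mul_one_div ((X : ℝ) ^ 3)]
          refine mul_le_mul_of_nonneg_left ?_ (by positivity)
          rw [div_le_div_iff₀ (by positivity) (by positivity), one_mul, ← pow_mul, ← pow_add]
          exact pow_le_pow_right₀ hl1 (by omega)
  have hdiv : ∑ n ∈ Icc 1 X, (n.divisors.card : ℝ) ^ 2 ≤ 4 * X * l ^ 3 := by
    refine (ThreePrimes.sum_card_divisors_sq_le X).trans ?_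
    rw [ThreePrimes.logOne, ← hl]
    have := pow_le_pow_left₀ (by linarith) (show 1 + l ≤ 3 / 2 * l by linarith) 3
    have h3 := mul_le_mul_of_nonneg_left this (Nat.cast_nonneg (α := ℝ) X)
    have : (0 : ℝ) ≤ (X : ℝ) * l ^ 3 := by positivity
    nlinarith
  have s4 : ∑ n ∈ Icc 1 X,
      (pairConst * n.divisors.card * (X * ((P + 1 : ℕ) : ℝ) ^ (-(1 / 4) : ℝ))) ^ 2 ≤
        4 * pairConst ^ 2 * E := by
    obtain ⟨t, ht⟩ : ∃ t : ℝ, t = ((P + 1 : ℕ) : ℝ) ^ (-(1 / 4) : ℝ) := ⟨_, rfl⟩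
    rw [← ht]
    have ht2 : t ^ 2 ≤ 1 / l ^ b := by
      have h1 : R ≤ ((P + 1 : ℕ) : ℝ) := by
        push_cast
        exact (hP ▸ Nat.lt_floor_add_one R).le
      rw [ht, ← Real.rpow_natCast, ← Real.rpow_mul (Nat.cast_nonneg _)]
      refine (Real.rpow_le_rpow_of_nonpos (by linarith) h1 (by norm_num)).trans (le_of_eq ?_)
      rw [hR, one_div (l ^ b), ← Real.rpow_natCast, ← Real.rpow_mul hl0.le, ← Real.rpow_natCast,
        ← Real.rpow_neg hl0.le]
      push_cast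
      ring_nf
    calc ∑ n ∈ Icc 1 X, (pairConst * n.divisors.card * (X * t)) ^ 2
        = pairConst ^ 2 * (X : ℝ) ^ 2 * t ^ 2 *
            ∑ n ∈ Icc 1 X, (n.divisors.card : ℝ) ^ 2 := by
          rw [mul_sum]
          exact sum_congr rfl fun n _ => by ring
      _ ≤ pairConst ^ 2 * (X : ℝ) ^ 2 * (1 / l ^ b) * (4 * X * l ^ 3) := by gcongr
      _ = 4 * pairConst ^ 2 * (X : ℝ) ^ 3 * (l ^ 3 / l ^ b) := by ring
      _ ≤ 4 * pairConst ^ 2 * (X : ℝ) ^ 3 * (1 / l ^ e) := by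
          refine mul_le_mul_of_nonneg_left ?_ (by positivity)
          rw [div_le_div_iff₀ (by positivity) (by positivity), one_mul, ← pow_add]
          exact pow_le_pow_right₀ hl1 (by omega)
      _ = _ := by rw [hE]; ring
  refine (mul_le_mul_of_nonneg_left (add_le_add (add_le_add (add_le_add p1 s2) s3) s4)
    (by norm_num)).trans (le_of_eq ?_)
  ring

end FA.PrimePairShifts

end
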