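import Fermat.Agent.AlmostGoldbach.Circle

/-!
# Pairs with a given difference on a grid of frequencies

`|S x| ^ 2 e (-n x)` summed over the points `h / M + θ` picks the pairs `i = j + n`, and the major
arc approximation of `S` passes to `|S| ^ 2`.
-/

set_option autoImplicit false

noncomputable section

namespace FA.PrimePairShifts

open Finset Complex ArithmeticFunction
open FA.ThreePrimes (eAdd nearDist clip trigSum geomSum arc arcCentres centre moebiusR
  ramanujan unitResidues)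
open FA.AlmostGoldbach (pairTerm)
open scoped Real ComplexConjugate

/-- The pairs in `[1, X]` with difference `n`. -/
def shiftSum (f : ℕ → ℂ) (X n : ℕ) : ℂ :=
  ∑ i ∈ Icc 1 X, ∑ j ∈ Icc 1 X, if i = j + n then f i * conj (f j) else 0

/-- `∑_{m ≤ X - n} Λ m Λ (m + n)`. -/
def shiftW (X n : ℕ) : ℝ := ∑ m ∈ Icc 1 (X - n), Λ m * Λ (m + n)

theorem shiftSum_collapse (f : ℕ → ℂ) {X n : ℕ} (hn : n ≤ X) :
    shiftSum f X n = ∑ m ∈ Icc 1 (X - n), f (m + n) * conj (f m) := by
  rw [shiftSum, sum_comm]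
  simp only [sum_ite_eq']
  rw [← sum_filter]
  refine sum_congr ?_ fun _ _ => rfl
  ext m
  simp only [mem_filter, mem_Icc]
  omega

theorem shiftSum_one {X n : ℕ} (hn : n ≤ X) :
    shiftSum (fun _ => 1) X n = ((X : ℝ) - n : ℝ) := by
  rw [shiftSum_collapse _ hn]
  simp [Nat.cast_sub hn]

theorem shiftSum_cast {X n : ℕ} (hn : n ≤ X) :
    shiftSum (fun i => (Λ i : ℂ)) X n = (shiftW X n : ℂ) := by
  rw [shiftSum_collapse _ hn, shiftW, Complex.ofReal_sum]
  exact sum_congr rfl fun m _ => by rw [Complex.conj_ofReal, Complex.ofReal_mul, mul_comm]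

/-- **`|S| ^ 2` on a translate of the grid.** -/
theorem sum_conj_grid (f : ℕ → ℂ) {X M n : ℕ} (hM : 3 * X ≤ M) (hn : n ≤ X) (θ : ℝ) :
    ∑ h ∈ range M, trigSum f X (h / M + θ) * conj (trigSum f X (h / M + θ)) *
      eAdd (-(n * (h / M + θ))) = M * shiftSum f X n := by
  have e : ∀ x : ℝ, trigSum f X x * conj (trigSum f X x) * eAdd (-(n * x)) =
      ∑ i ∈ Icc 1 X, ∑ j ∈ Icc 1 X,
        f i * conj (f j) * eAdd ((((i : ℤ) - j - n : ℤ) : ℝ) * x) := by
    intro x
    rw [trigSum, map_sum, sum_mul_sum, sum_mul]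
    simp only [sum_mul]
    refine sum_congr rfl fun i _ => sum_congr rfl fun j _ => ?_
    push_cast
    rw [show ((i : ℝ) - j - n) * x = i * x + -(j * x) + -(n * x) by ring,
      ThreePrimes.eAdd_add, ThreePrimes.eAdd_add, map_mul, ThreePrimes.conj_eAdd]
    ring
  simp only [e]
  rw [sum_comm, shiftSum, mul_sum]
  refine sum_congr rfl fun i hi => ?_
  rw [sum_comm, mul_sum]
  refine sum_congr rfl fun j hj => ?_
  rw [mem_Icc] at hi hj
  simp only [mul_add, ThreePrimes.eAdd_add, ← mul_assoc]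
  rw [← sum_mul, ← mul_sum]
  simp only [← mul_div_assoc]
  rw [ThreePrimes.sum_eAdd_grid (by omega)]
  by_cases h : i = j + n
  · rw [if_pos h, show ((i : ℤ) - j - n) = 0 by omega, if_pos (dvd_zero _)]
    simp
    ring
  · rw [if_neg h, if_neg]
    · simp
    · intro hd
      have := Int.le_of_dvd (abs_pos.2 (show ((i : ℤ) - j - n) ≠ 0 by omega)) ((dvd_abs _ _).2 hd)
      have : |((i : ℤ) - j - n)| < M := abs_lt.2 ⟨by omega, by omega⟩
      omega

/-- The main summand. -/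
def mainShift (X n : ℕ) (x : ℝ) : ℂ := geomSum X x * conj (geomSum X x) * eAdd (-(n * x))

theorem sum_mainShift_grid {X M n : ℕ} (hM : 3 * X ≤ M) (hn : n ≤ X) (θ : ℝ) :
    ∑ h ∈ range M, mainShift X n ((h : ℝ) / M + θ) = M * ((X : ℝ) - n : ℝ) := by
  rw [← shiftSum_one hn, ← sum_conj_grid (fun _ => (1 : ℂ)) hM hn θ]
  refine sum_congr rfl fun h _ => ?_
  simp only [mainShift, geomSum, trigSum, one_mul]
  rfl

theorem norm_mul_conj_sub_le {A B : ℂ} {K η : ℝ} (hA : ‖A‖ ≤ K) (hB : ‖B‖ ≤ K)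
    (h : ‖A - B‖ ≤ η) : ‖A * conj A - B * conj B‖ ≤ 2 * K * η := by
  rw [show A * conj A - B * conj B = (A - B) * conj A + B * conj (A - B) by rw [map_sub]; ring]
  refine (norm_add_le _ _).trans ?_
  rw [norm_mul, norm_mul, Complex.norm_conj, Complex.norm_conj]
  have hK : 0 ≤ K := (norm_nonneg _).trans hA
  have h1 := mul_le_mul h hA (norm_nonneg _) ((norm_nonneg _).trans h)
  have h2 := mul_le_mul hB h (norm_nonneg _) hK
  linarith

/-- The coefficient of the arc at `r / q`. -/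
def arcCoeff (n : ℕ) (z : Σ _ : ℕ, ℕ) : ℂ :=
  (((moebiusR z.1 / z.1.totient) ^ 2 : ℝ) : ℂ) * eAdd (-(n * centre z))

theorem sum_arcCoeff (n P : ℕ) :
    ∑ z ∈ arcCentres P, arcCoeff n z = ((∑ q ∈ Icc 1 P, pairTerm n q : ℝ) : ℂ) := by
  rw [arcCentres, sum_sigma, Complex.ofReal_sum]
  refine sum_congr rfl fun q hq => ?_
  rw [mem_Icc] at hq
  simp only [arcCoeff]
  rw [← mul_sum, AlmostGoldbach.pairTerm_apply, Complex.ofReal_div, Complex.ofReal_mul,
    ThreePrimes.ramanujan_eq hq.1, div_pow, Complex.ofReal_div]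
  rw [sum_congr rfl fun r _ => show eAdd (-((n : ℝ) * centre ⟨q, r⟩)) =
    eAdd (((-n : ℤ) : ℝ) * r / q) by simp only [centre]; push_cast; ring_nf]
  push_cast
  ring

theorem sum_norm_arcCoeff_le (n P : ℕ) : ∑ z ∈ arcCentres P, ‖arcCoeff n z‖ ≤
    2 * (∑' q : ℕ, (q : ℝ) ^ (-(5 / 4) : ℝ)) * √(P : ℝ) := by
  rw [arcCentres, sum_sigma, mul_right_comm]
  refine le_trans (sum_le_sum (g := fun q : ℕ =>
    2 * √(P : ℝ) * (q : ℝ) ^ (-(5 / 4) : ℝ)) fun q hq => ?_) ?_
  · rw [mem_Icc] at hq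
    refine (sum_le_card_nsmul _ _ (1 / (q.totient : ℝ) ^ 2) fun r _ => ?_).trans ?_
    · rw [arcCoeff, norm_mul, ThreePrimes.norm_eAdd, mul_one, Complex.norm_real,
        Real.norm_eq_abs, div_pow, abs_div, abs_pow, abs_pow, Nat.abs_cast]
      exact div_le_div_of_nonneg_right
        (pow_le_one₀ (abs_nonneg _) (ThreePrimes.abs_moebiusR_le q)) (by positivity)
    · rw [ThreePrimes.card_unitResidues, nsmul_eq_mul]
      refine le_trans (le_of_eq ?_) (AlmostGoldbach.inv_totient_le hq.1 hq.2)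
      have : (q.totient : ℝ) ≠ 0 := Nat.cast_ne_zero.2 (Nat.totient_pos.2 hq.1).ne'
      field_simp
  · rw [← mul_sum]
    exact mul_le_mul_of_nonneg_left (Summable.sum_le_tsum _ (fun i _ => by positivity)
      (Real.summable_nat_rpow.2 (by norm_num))) (by positivity)

theorem card_arcCentres_le {P : ℕ} {R : ℝ} (hPR : (P : ℝ) ≤ R) :
    ((arcCentres P).card : ℝ) ≤ R ^ 2 := by
  have h1 : (arcCentres P).card ≤ P * P := by
    rw [arcCentres, card_sigma]
    refine (sum_le_card_nsmul _ _ P fun q hq => ?_).trans (le_of_eq ?_)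
    · rw [ThreePrimes.card_unitResidues]
      exact (Nat.totient_le q).trans (mem_Icc.1 hq).2
    · simp
  refine (Nat.cast_le.2 h1).trans ?_
  push_cast
  rw [sq]
  exact mul_le_mul hPR hPR (Nat.cast_nonneg P) ((Nat.cast_nonneg P).trans hPR)

theorem pairwiseDisjoint_arc {M P : ℕ} {R X : ℝ} (hX : 0 < X) (hR : 1 ≤ R) (hPR : (P : ℝ) ≤ R)
    (hP : 1 ≤ P) (hR3 : 2 * R ^ 3 < X) :
    ((arcCentres P : Finset _) : Set (Σ _ : ℕ, ℕ)).PairwiseDisjoint (arc M (R / X)) := by
  intro z hz w hw hne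
  have hP0 : (0 : ℝ) < P := Nat.cast_pos.2 hP
  rw [Function.onFun, disjoint_left]
  intro h h1 h2
  rw [arc, mem_filter] at h1 h2
  have h3 := (ThreePrimes.inv_mul_le_nearDist_centre hz hw hne).trans
    ((ThreePrimes.nearDist_sub_sub_le _ _ _).trans (add_le_add h1.2 h2.2))
  rw [div_le_iff₀ (by positivity)] at h3
  have h4 : (R / X + R / X) * ((P : ℝ) * P) ≤ (R / X + R / X) * (R * R) :=
    mul_le_mul_of_nonneg_left (mul_le_mul hPR hPR hP0.le (by linarith)) (by positivity)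
  have h5 : (R / X + R / X) * (R * R) < 1 := by
    rw [show (R / X + R / X) * (R * R) = 2 * R ^ 3 / X by ring, div_lt_one hX]
    exact hR3
  linarith

/-- **The main summand off its arc.** -/
theorem norm_sum_mainShift_off_le {X M : ℕ} [NeZero M] (hM : (M : ℝ) = 3 * X) {R l : ℝ}
    (hX : (0 : ℝ) < X) (hR : 1 ≤ R) (hl : 1 ≤ l) (hlogM : 1 + Real.log M ≤ 3 * l) (n : ℕ)
    (z : Σ _ : ℕ, ℕ) :
    ‖∑ h ∈ range M \ arc M (R / X) z, mainShift X n ((h : ℝ) / M + -centre z)‖ ≤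
      24 * (X : ℝ) ^ 2 * l / R := by
  obtain ⟨δ, hδ⟩ : ∃ δ, δ = R / (X : ℝ) := ⟨_, rfl⟩
  have hδ0 : 0 < δ := by rw [hδ]; positivity
  rw [← hδ]
  obtain ⟨Z, hZ⟩ : ∃ Z, Z = 1 / (2 * δ) := ⟨_, rfl⟩
  have hZ0 : 0 < Z := by rw [hZ]; positivity
  refine (norm_sum_le _ _).trans ((sum_le_sum (g := fun h : ℕ =>
    Z * clip Z ((h : ℝ) / M - centre z)) fun h hh => ?_).trans ?_)
  · rw [mem_sdiff, arc, mem_filter, not_and, not_le] at hh
    have hd := hh.2 hh.1
    rw [← sub_eq_add_neg, mainShift, norm_mul, ThreePrimes.norm_eAdd, mul_one, norm_mul,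
      Complex.norm_conj]
    have h1 := ThreePrimes.norm_geom_le ((h : ℝ) / M - centre z) 0 X
    have h2 : clip ((X - 0 : ℕ) : ℝ) ((h : ℝ) / M - centre z) ≤
        1 / (2 * nearDist ((h : ℝ) / M - centre z)) :=
      ThreePrimes.clip_le_inv (hδ0.trans hd) le_rfl
    have h3 : 1 / (2 * nearDist ((h : ℝ) / M - centre z)) ≤ Z :=
      hZ ▸ one_div_le_one_div_of_le (by positivity) (by linarith)
    have h4 : clip Z ((h : ℝ) / M - centre z) =
        1 / (2 * nearDist ((h : ℝ) / M - centre z)) := by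
      rw [clip, if_neg (by linarith), min_eq_right h3]
    rw [h4]
    have h5 : ‖geomSum X ((h : ℝ) / M - centre z)‖ ≤
        1 / (2 * nearDist ((h : ℝ) / M - centre z)) := h1.trans h2
    exact mul_le_mul (h5.trans h3) h5 (norm_nonneg _) hZ0.le
  · rw [← mul_sum]
    refine (mul_le_mul_of_nonneg_left ((sum_le_sum_of_subset_of_nonneg sdiff_subset
      fun i _ _ => ThreePrimes.clip_nonneg hZ0.le _).trans
        (ThreePrimes.sum_clip_grid_le (centre z) hZ0.le)) hZ0.le).trans ?_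
    have hZN : Z = X / (2 * R) := by
      rw [hZ, hδ]
      field_simp
    rw [hZN]
    calc (X : ℝ) / (2 * R) * (5 * (X / (2 * R)) + 2 * M * (1 + Real.log M))
        ≤ (X : ℝ) / (2 * R) * (5 * (X / 2) * l + 2 * (3 * X) * (3 * l)) := by
          refine mul_le_mul_of_nonneg_left (add_le_add ?_ ?_) (by positivity)
          · have h2 : (X : ℝ) / (2 * R) ≤ X / 2 :=
              div_le_div_of_nonneg_left hX.le two_pos (by linarith)
            calc 5 * ((X : ℝ) / (2 * R)) ≤ 5 * (X / 2) * 1 := by linarith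
              _ ≤ _ := mul_le_mul_of_nonneg_left hl (by positivity)
          · rw [← hM]
            exact mul_le_mul_of_nonneg_left hlogM (by positivity)
      _ = 41 / 4 * ((X : ℝ) ^ 2 * l / R) := by field_simp; ring
      _ ≤ _ := by
          have : 0 ≤ (X : ℝ) ^ 2 * l / R := by positivity
          rw [show 24 * (X : ℝ) ^ 2 * l / R = 24 * ((X : ℝ) ^ 2 * l / R) by ring]
          linarith

end FA.PrimePairShifts

end
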