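import Fermat.Agent.AlmostGoldbach.Main
import Fermat.Agent.PrimePairShifts.Circle

/-!
# Prime pairs for almost all differences

The mean square for all `X`, the exceptional sets, and the even numbers that are differences of
two primes.
-/

set_option autoImplicit false

noncomputable section

namespace FA.PrimePairShifts

open Finset ArithmeticFunction
open FA.ThreePrimes (powerPart)
open FA.AlmostGoldbach (pairSeries)
open scoped Topology

/-- **The mean square.** -/
theorem exists_mean_square (e : ℕ) : ∃ C : ℝ, 0 < C ∧ ∀ X : ℕ, 2 ≤ X →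
    ∑ n ∈ Icc 1 X, (shiftW X n - pairSeries n * ((X : ℝ) - n)) ^ 2 ≤
      C * ((X : ℝ) ^ 3 / Real.log X ^ e) := by
  obtain ⟨C, X₀, hC, h⟩ := exists_mean_square_large e
  obtain ⟨S₀, hS₀⟩ : ∃ S₀, S₀ = ∑ X ∈ range X₀,
      ∑ n ∈ Icc 1 X, (shiftW X n - pairSeries n * ((X : ℝ) - n)) ^ 2 := ⟨_, rfl⟩
  obtain ⟨L, hL⟩ : ∃ L : ℝ, L = (Real.log X₀ + 1) ^ e := ⟨_, rfl⟩
  have hS0 : 0 ≤ S₀ := hS₀ ▸ sum_nonneg fun X _ => sum_nonneg fun n _ => sq_nonneg _
  have hL0 : 0 < L := hL ▸ pow_pos (by linarith [Real.log_natCast_nonneg X₀]) e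
  refine ⟨C + S₀ * L, by positivity, fun X hX => ?_⟩
  have hl : 0 < Real.log X := Real.log_pos (by exact_mod_cast hX)
  obtain ⟨E, hE⟩ : ∃ E : ℝ, E = (X : ℝ) ^ 3 / Real.log X ^ e := ⟨_, rfl⟩
  rw [← hE]
  have hE0 : 0 ≤ E := by rw [hE]; positivity
  rcases le_or_gt X₀ X with hle | hlt
  · refine (hE ▸ h X hle).trans ?_
    have : 0 ≤ S₀ * L * E := by positivity
    linarith
  · have h1 : ∑ n ∈ Icc 1 X, (shiftW X n - pairSeries n * ((X : ℝ) - n)) ^ 2 ≤ S₀ := hS₀ ▸
      single_le_sum (f := fun Y : ℕ => ∑ n ∈ Icc 1 Y,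
        (shiftW Y n - pairSeries n * ((Y : ℝ) - n)) ^ 2)
        (fun Y _ => sum_nonneg fun n _ => sq_nonneg _) (mem_range.2 hlt)
    have h3 : 1 ≤ L * E := by
      rw [hE, mul_div_assoc', le_div_iff₀ (by positivity), one_mul]
      refine le_trans ?_ (le_mul_of_one_le_right hL0.le ?_)
      · refine hL ▸ pow_le_pow_left₀ hl.le ?_ e
        linarith [Real.log_le_log (show (0 : ℝ) < X by positivity) (Nat.cast_le.2 hlt.le :
          (X : ℝ) ≤ X₀)]
      · exact one_le_pow₀ (by exact_mod_cast (show 1 ≤ X by omega))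
    have h4 := mul_le_mul_of_nonneg_left h3 hS0
    have : 0 ≤ C * E := by positivity
    linarith

open scoped Classical in
/-- The differences `n ≤ X` with an error above `X / (log X) ^ A`. -/
def largeShift (A X : ℕ) : Finset ℕ :=
  (Icc 1 X).filter fun n : ℕ =>
    (X : ℝ) / Real.log X ^ A < |shiftW X n - pairSeries n * ((X : ℝ) - n)|

/-- **Few large errors.** -/
theorem exists_card_largeShift_le (A : ℕ) : ∃ C : ℝ, 0 < C ∧ ∀ X : ℕ, 2 ≤ X →
    ((largeShift A X).card : ℝ) ≤ C * ((X : ℝ) / Real.log X ^ A) := by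
  classical
  obtain ⟨C, hC, h⟩ := exists_mean_square (3 * A)
  refine ⟨C, hC, fun X hX => ?_⟩
  have hl : 0 < Real.log X := Real.log_pos (by exact_mod_cast hX)
  obtain ⟨T, hT⟩ : ∃ T : ℝ, T = (X : ℝ) / Real.log X ^ A := ⟨_, rfl⟩
  have hT0 : 0 < T := by rw [hT]; positivity
  rw [← hT]
  have h1 : ((largeShift A X).card : ℝ) * T ^ 2 ≤ C * T * T ^ 2 := by
    refine le_trans ?_ ((h X hX).trans (le_of_eq ?_))
    · refine le_trans ?_ (sum_le_sum_of_subset_of_nonneg (s := largeShift A X)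
        (filter_subset _ _) fun n _ _ => sq_nonneg _)
      rw [← nsmul_eq_mul]
      refine card_nsmul_le_sum _ _ _ fun n hn => ?_
      rw [largeShift, mem_filter, ← hT] at hn
      rw [← sq_abs (shiftW X n - _)]
      exact pow_le_pow_left₀ hT0.le hn.2.le 2
    · rw [hT, pow_mul']
      field_simp
  exact le_of_mul_le_mul_right h1 (by positivity)

/-- The number of `p ≤ X - n` with `p` and `p + n` prime. -/
def shiftCount (X n : ℕ) : ℕ := ((Icc 1 (X - n)).filter fun p => p.Prime ∧ (p + n).Prime).card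

theorem shiftW_le {X n : ℕ} (hn : n ≤ X) (hX : 1 ≤ X) :
    shiftW X n ≤ shiftCount X n * Real.log X ^ 2 + 4 * √(X : ℝ) * Real.log X ^ 2 := by
  obtain ⟨l, hl⟩ : ∃ l, l = Real.log X := ⟨_, rfl⟩
  rw [← hl]
  have hl0 : 0 ≤ l := hl ▸ Real.log_natCast_nonneg X
  have hΛ : ∀ i : ℕ, 1 ≤ i → i ≤ X → Λ i ≤ l := fun i h1 h2 => hl ▸
    vonMangoldt_le_log.trans (Real.log_le_log (Nat.cast_pos.2 h1) (Nat.cast_le.2 h2))
  have hpp : ∑ i ∈ Icc 1 X, powerPart i ≤ 2 * √(X : ℝ) * l :=
    hl ▸ ThreePrimes.sum_powerPart_le hX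
  have hp1 : ∑ i ∈ Icc 1 (X - n), powerPart i ≤ ∑ i ∈ Icc 1 X, powerPart i :=
    sum_le_sum_of_subset_of_nonneg (Icc_subset_Icc_right (by omega))
      fun i _ _ => ThreePrimes.powerPart_nonneg i
  have hp2 : ∑ i ∈ Icc 1 (X - n), powerPart (i + n) ≤ ∑ i ∈ Icc 1 X, powerPart i := by
    rw [← sum_image (f := powerPart) (g := (· + n)) fun a _ b _ h => add_right_cancel h]
    refine sum_le_sum_of_subset_of_nonneg (fun i hi => ?_)
      fun i _ _ => ThreePrimes.powerPart_nonneg i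
    rw [mem_image] at hi
    obtain ⟨a, ha, rfl⟩ := hi
    rw [mem_Icc] at ha ⊢
    omega
  refine (sum_le_sum (g := fun i => (if i.Prime ∧ (i + n).Prime then l ^ 2 else 0) +
    (l * powerPart i + l * powerPart (i + n))) fun i hi => ?_).trans ?_
  · rw [mem_Icc] at hi
    have h1 := hΛ i hi.1 (by omega)
    have h2 := hΛ (i + n) (by omega) (by omega)
    have e1 := mul_nonneg hl0 (ThreePrimes.powerPart_nonneg i)
    have e2 := mul_nonneg hl0 (ThreePrimes.powerPart_nonneg (i + n))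
    by_cases hi' : i.Prime
    · by_cases hj : (i + n).Prime
      · rw [if_pos ⟨hi', hj⟩]
        have := mul_le_mul h1 h2 vonMangoldt_nonneg hl0
        rw [← sq] at this
        linarith
      · rw [if_neg fun h => hj h.2, show powerPart (i + n) = Λ (i + n) from if_neg hj]
        have := mul_le_mul_of_nonneg_right h1 (vonMangoldt_nonneg (n := i + n))
        linarith
    · rw [if_neg fun h => hi' h.1, show powerPart i = Λ i from if_neg hi']
      have := mul_le_mul_of_nonneg_left h2 (vonMangoldt_nonneg (n := i))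
      linarith
  · rw [sum_add_distrib, sum_add_distrib, ← mul_sum, ← mul_sum, sum_ite, sum_const_zero,
      sum_const, add_zero, nsmul_eq_mul, shiftCount]
    have h1 := mul_le_mul_of_nonneg_left (hp1.trans hpp) hl0
    have h2 := mul_le_mul_of_nonneg_left (hp2.trans hpp) hl0
    linarith

open scoped Classical in
/-- The even `n ≤ X` with few pairs of primes up to `X` of difference `n`. -/
def fewShifts (X : ℕ) : Finset ℕ :=
  (Icc 1 X).filter fun n : ℕ =>
    Even n ∧ (shiftCount X n : ℝ) * Real.log X ^ 2 < ((X : ℝ) - n) / 4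

/-- **Few differences with few pairs.** -/
theorem exists_card_fewShifts_le (A : ℕ) : ∃ C : ℝ, 0 < C ∧ ∀ X : ℕ, 2 ≤ X →
    ((fewShifts X).card : ℝ) ≤ C * ((X : ℝ) / Real.log X ^ A) := by
  classical
  obtain ⟨C, hC, h⟩ := exists_card_largeShift_le (A + 1)
  obtain ⟨K, hK, hpow⟩ := ThreePrimes.exists_log_pow_le (A + 3)
  refine ⟨C + 2 + (32 * K + 8) ^ A, by positivity, fun X hX => ?_⟩
  obtain ⟨l, hl⟩ : ∃ l, l = Real.log X := ⟨_, rfl⟩
  rw [← hl]
  have hl0 : 0 < l := hl ▸ Real.log_pos (by exact_mod_cast hX)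
  obtain ⟨T, hT⟩ : ∃ T : ℝ, T = (X : ℝ) / l ^ A := ⟨_, rfl⟩
  rw [← hT]
  have hT0 : 0 < T := by rw [hT]; positivity
  rw [add_mul, add_mul]
  rcases le_or_gt l (32 * K + 8) with hsmall | hbig
  · refine le_trans ?_ (le_add_of_nonneg_left (by positivity))
    refine (Nat.cast_le.2
      ((card_le_card (filter_subset _ _)).trans_eq (Nat.card_Icc 1 X))).trans ?_
    rw [Nat.add_sub_cancel]
    have h1 := mul_le_mul_of_nonneg_right (pow_le_pow_left₀ hl0.le hsmall A) hT0.le
    refine le_trans (le_of_eq ?_) h1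
    rw [hT]
    field_simp
  refine le_trans ?_ (le_add_of_nonneg_right (by positivity))
  have hX1 : (1 : ℝ) ≤ X := by exact_mod_cast (show 1 ≤ X by omega)
  have h32 : 32 * √(X : ℝ) * l ^ 2 ≤ T := by
    rw [hT, le_div_iff₀ (by positivity)]
    have hp := hl ▸ hpow X hX1
    refine le_of_mul_le_mul_right ?_ hl0
    calc 32 * √(X : ℝ) * l ^ 2 * l ^ A * l = 32 * √(X : ℝ) * l ^ (A + 3) := by ring
      _ ≤ 32 * √(X : ℝ) * (K * √(X : ℝ)) := mul_le_mul_of_nonneg_left hp (by positivity)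
      _ = X * (32 * K) := by
          rw [show 32 * √(X : ℝ) * (K * √(X : ℝ)) = √(X : ℝ) * √(X : ℝ) * (32 * K) by ring,
            Real.mul_self_sqrt (Nat.cast_nonneg X)]
      _ ≤ X * l := mul_le_mul_of_nonneg_left (by linarith) (Nat.cast_nonneg X)
  have hT1 : 1 ≤ T := by
    have h1 : 1 ≤ √(X : ℝ) * l ^ 2 :=
      one_le_mul_of_one_le_of_one_le (Real.one_le_sqrt.2 hX1) (one_le_pow₀ (by linarith))
    linarith
  have hsub : fewShifts X ⊆ Icc (X - ⌊T⌋₊) X ∪ largeShift (A + 1) X := by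
    intro n hn
    rw [fewShifts, mem_filter, mem_Icc, ← hl] at hn
    obtain ⟨⟨hn1, hnX⟩, heven, hfew⟩ := hn
    rw [mem_union, mem_Icc, largeShift, mem_filter, mem_Icc, ← hl]
    rcases le_or_gt ((X : ℝ) - n) T with hle | hgt
    · refine Or.inl ⟨?_, hnX⟩
      rw [← Nat.cast_sub hnX] at hle
      have := Nat.le_floor hle
      omega
    refine Or.inr ⟨⟨hn1, hnX⟩, ?_⟩
    have h1 := shiftW_le hnX (by omega)
    rw [← hl] at h1
    have h3 := mul_le_mul_of_nonneg_right (AlmostGoldbach.half_le_pairSeries (by omega) heven)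
      (show (0 : ℝ) ≤ (X : ℝ) - n by linarith)
    have h4 : (X : ℝ) / l ^ (A + 1) ≤ ((X : ℝ) - n) / 8 := by
      have : (X : ℝ) / l ^ (A + 1) = T / l := by rw [hT, pow_succ]; field_simp
      rw [this, div_le_iff₀ hl0]
      have := mul_le_mul_of_nonneg_left (show (8 : ℝ) ≤ l by linarith)
        (show (0 : ℝ) ≤ ((X : ℝ) - n) / 8 by linarith)
      linarith
    have h5 := neg_abs_le (shiftW X n - pairSeries n * ((X : ℝ) - n))
    linarith
  refine (Nat.cast_le.2 ((card_le_card hsub).trans (card_union_le _ _))).trans ?_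
  rw [Nat.cast_add, Nat.card_Icc, add_comm]
  refine add_le_add ((h X hX).trans ?_) ?_
  · rw [← hl, hT]
    exact mul_le_mul_of_nonneg_left (div_le_div_of_nonneg_left (Nat.cast_nonneg X) (by positivity)
      (pow_le_pow_right₀ (by linarith) (by omega))) hC.le
  · refine le_trans (Nat.cast_le.2 (show X + 1 - (X - ⌊T⌋₊) ≤ ⌊T⌋₊ + 1 by omega)) ?_
    push_cast
    linarith [Nat.floor_le hT0.le]

open scoped Classical in
/-- The even `n ≤ X` that are not the difference of two primes. -/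
def differenceExceptions (X : ℕ) : Finset ℕ :=
  (Icc 1 X).filter fun n : ℕ => Even n ∧ ¬ ∃ p q : ℕ, p.Prime ∧ q.Prime ∧ p + n = q

/-- **Almost all even numbers are differences of two primes.** -/
theorem exists_card_differenceExceptions_le (A : ℕ) : ∃ C : ℝ, 0 < C ∧ ∀ X : ℕ, 2 ≤ X →
    ((differenceExceptions X).card : ℝ) ≤ C * ((X : ℝ) / Real.log X ^ A) := by
  classical
  obtain ⟨C, hC, h⟩ := exists_card_fewShifts_le A
  obtain ⟨K, hK, hpow⟩ := ThreePrimes.exists_log_pow_le A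
  refine ⟨C + K, by positivity, fun X hX => ?_⟩
  have hl0 : 0 < Real.log X := Real.log_pos (by exact_mod_cast hX)
  have hX1 : (1 : ℝ) ≤ X := by exact_mod_cast (show 1 ≤ X by omega)
  have hsub : differenceExceptions X ⊆ fewShifts X ∪ {X} := by
    intro n hn
    rw [differenceExceptions, mem_filter] at hn
    obtain ⟨hnX, heven, hno⟩ := hn
    rw [mem_union, fewShifts, mem_filter, mem_singleton]
    refine or_iff_not_imp_right.2 fun hne => ⟨hnX, heven, ?_⟩
    have hcnt : shiftCount X n = 0 := card_eq_zero.2 (filter_eq_empty_iff.2 fun p _ hp =>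
      hno ⟨p, p + n, hp.1, hp.2, rfl⟩)
    rw [mem_Icc] at hnX
    have : (n : ℝ) < X := by exact_mod_cast (show n < X by omega)
    rw [hcnt, Nat.cast_zero, zero_mul]
    linarith
  refine (Nat.cast_le.2 ((card_le_card hsub).trans (card_union_le _ _))).trans ?_
  rw [Nat.cast_add, card_singleton, Nat.cast_one, add_mul]
  refine add_le_add (h X hX) ?_
  rw [mul_div_assoc', le_div_iff₀ (by positivity), one_mul]
  refine (hpow X hX1).trans (mul_le_mul_of_nonneg_left ?_ hK.le)
  exact Real.sqrt_le_self_iff.2 (Or.inr hX1)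

end FA.PrimePairShifts

end
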